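import Mathlib

set_option autoImplicit false

namespace Fermat.Agent.Lib.S49

open Module

/-- A pairwise commuting family of endomorphisms of a finite-dimensional vector space over an
algebraically closed field has a common eigenvector inside any nonzero invariant subspace. -/
theorem exists_common_eigenvector_of_mapsTo
    {K V ι : Type*} [Field K] [IsAlgClosed K] [AddCommGroup V] [Module K V]
    [FiniteDimensional K V] (f : ι → Module.End K V)
    (hcomm : ∀ i j, Commute (f i) (f j)) :
    ∀ (n : ℕ) (U : Submodule K V), finrank K U = n → U ≠ ⊥ →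
      (∀ i, ∀ v ∈ U, f i v ∈ U) →
      ∃ v ∈ U, v ≠ 0 ∧ ∀ i, ∃ μ : K, f i v = μ • v := by
  intro n
  induction n using Nat.strong_induction_on with
  | _ n ih =>
    intro U hUn hU hinv
    by_cases hscal : ∀ i, ∃ μ : K, ∀ v ∈ U, f i v = μ • v
    · obtain ⟨v, hvU, hv0⟩ := Submodule.exists_mem_ne_zero_of_ne_bot hU
      exact ⟨v, hvU, hv0, fun i => by
        obtain ⟨μ, hμ⟩ := hscal i
        exact ⟨μ, hμ v hvU⟩⟩
    · push Not at hscal
      obtain ⟨i, hi⟩ := hscal
      -- restrict `f i` to `U` and pick an eigenvalue
      have hmaps : Set.MapsTo (f i) U U := fun v hv => hinv i v hv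
      let g : Module.End K U := (f i).restrict hmaps
      have : Nontrivial U := Submodule.nontrivial_iff_ne_bot.mpr hU
      obtain ⟨μ, hμ⟩ := Module.End.exists_eigenvalue g
      obtain ⟨w, hw⟩ := hμ.exists_hasEigenvector
      have hw0 : (w : V) ≠ 0 := fun h => hw.2 (Subtype.ext h)
      have hwe : f i (w : V) = μ • (w : V) := by
        have h1 : g w = μ • w := hw.apply_eq_smul
        have h2 : ((g w : U) : V) = f i (w : V) := rfl
        rw [← h2, h1]
        rfl
      let U' : Submodule K V := U ⊓ (f i).eigenspace μ
      have hwU' : (w : V) ∈ U' := ⟨w.2, Module.End.mem_eigenspace_iff.mpr hwe⟩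
      have hU'ne : U' ≠ ⊥ := fun h => hw0 (by
        have : (w : V) ∈ (⊥ : Submodule K V) := h ▸ hwU'
        simpa using this)
      have hU'lt : U' < U := by
        refine lt_of_le_of_ne inf_le_left ?_
        intro heq
        obtain ⟨v, hvU, hv⟩ := hi μ
        apply hv
        have : v ∈ U' := heq ▸ hvU
        exact Module.End.mem_eigenspace_iff.mp this.2
      have hrank : finrank K U' < n := hUn ▸ Submodule.finrank_lt_finrank_of_lt hU'lt
      have hinv' : ∀ j, ∀ v ∈ U', f j v ∈ U' := by
        intro j v hv
        refine ⟨hinv j v hv.1, ?_⟩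
        show f j v ∈ (f i).eigenspace μ
        rw [Module.End.mem_eigenspace_iff]
        have hve : f i v = μ • v := Module.End.mem_eigenspace_iff.mp hv.2
        have hc : f i (f j v) = f j (f i v) := by
          have := (hcomm i j).eq
          exact congrArg (fun φ : Module.End K V => φ v) this
        rw [hc, hve, map_smul]
      obtain ⟨v, hvU', hv0, hv⟩ := ih (finrank K U') hrank U' rfl hU'ne hinv'
      exact ⟨v, hvU'.1, hv0, hv⟩

end Fermat.Agent.Lib.S49
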