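/-
(B1) for S49: under `HasIntegralBasis N`, the weight-2 Hecke algebra of level `N` is integral over `ℤ`.
-/
import Mathlib
import Fermat.Prelude.Def_CuspForm_HeckeAlgebra
import Fermat.Prelude.Def_CuspForm_IntegralLattice
import Fermat.Prelude.Def_CuspForm_IntegralStructure
import Fermat.Prelude.Thm_CuspForm_intLattice_fg
import Fermat.Prelude.Thm_CuspForm_mem_intLattice_of_mem_heckeAlgebra

set_option autoImplicit false

namespace Fermat.Agent.Lib.S49

open CuspForm CongruenceSubgroup ModularFormClass

/-- The generating set of `qIntegralLattice` is the generating set of `intLattice N 2`. -/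
theorem qIntegralSet_eq (N : ℕ) :
    qIntegralSet N =
      {f : CuspForm (Gamma0 N) 2 | ∀ n : ℕ, ∃ m : ℤ, ModularFormClass.qCoeff f n = (m : ℂ)} := by
  ext f
  simp only [qIntegralSet, Set.mem_ofPred_eq, Subring.mem_bot]
  constructor
  · intro h n
    obtain ⟨m, hm⟩ := h n
    exact ⟨m, hm.symm⟩
  · intro h n
    obtain ⟨m, hm⟩ := h n
    exact ⟨m, hm.symm⟩

theorem qIntegralLattice_eq_intLattice (N : ℕ) : qIntegralLattice N = intLattice N 2 := by
  unfold qIntegralLattice intLattice
  rw [qIntegralSet_eq]

theorem qIntegralSet_subset_intLattice (N : ℕ) :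
    qIntegralSet N ⊆ (intLattice N 2 : Set (CuspForm (Gamma0 N) 2)) := by
  rw [← qIntegralLattice_eq_intLattice]
  exact Submodule.subset_span

/-- Under `HasIntegralBasis`, the integral lattice spans the space of cusp forms. -/
theorem span_intLattice_eq_top {N : ℕ} (h : HasIntegralBasis N) :
    Submodule.span ℂ (intLattice N 2 : Set (CuspForm (Gamma0 N) 2)) = ⊤ := by
  rw [eq_top_iff, ← h]
  exact Submodule.span_mono (qIntegralSet_subset_intLattice N)

/-- The Hecke algebra preserves the integral lattice (weight 2). -/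
theorem heckeAlgebra_apply_mem_intLattice {N : ℕ} [NeZero N] {S : Set ℕ}
    {t : Module.End ℂ (CuspForm (Gamma0 N) 2)} (ht : t ∈ heckeAlgebra N 2 S)
    {f : CuspForm (Gamma0 N) 2} (hf : f ∈ intLattice N 2) : t f ∈ intLattice N 2 :=
  mem_intLattice_of_mem_heckeAlgebra (by norm_num) ht hf

/-- Every element of the Hecke algebra is integral over `ℤ` (as an endomorphism), provided the
integral lattice spans. -/
theorem isIntegral_of_mem_heckeAlgebra {N : ℕ} [NeZero N] (h : HasIntegralBasis N) {S : Set ℕ}
    {t : Module.End ℂ (CuspForm (Gamma0 N) 2)} (ht : t ∈ heckeAlgebra N 2 S) :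
    IsIntegral ℤ t := by
  have hfin : Module.Finite ℤ (intLattice N 2) := Module.Finite.iff_fg.2 (intLattice_fg N 2)
  let tL : Module.End ℤ (intLattice N 2) :=
    LinearMap.restrict (t.restrictScalars ℤ) (fun f hf => heckeAlgebra_apply_mem_intLattice ht hf)
  have htL : ∀ x : intLattice N 2, ((tL x : intLattice N 2) : CuspForm (Gamma0 N) 2) = t x :=
    fun _ => rfl
  obtain ⟨p, hpm, hp⟩ := (Algebra.IsIntegral.isIntegral tL : IsIntegral ℤ tL)
  refine ⟨p, hpm, ?_⟩
  -- compare the two evaluations on the lattice
  have key : ∀ q : Polynomial ℤ, ∀ x : intLattice N 2,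
      (Polynomial.aeval t q) (x : CuspForm (Gamma0 N) 2) =
        ((Polynomial.aeval tL q) x : intLattice N 2) := by
    intro q
    induction q using Polynomial.induction_on with
    | C a =>
      intro x
      simp only [Polynomial.aeval_C, Module.algebraMap_end_apply]
      rfl
    | add q₁ q₂ h₁ h₂ =>
      intro x
      simp only [map_add, LinearMap.add_apply, h₁ x, h₂ x, Submodule.coe_add]
    | monomial n a ih =>
      intro x
      have e1 : (Polynomial.C a * Polynomial.X ^ (n + 1) : Polynomial ℤ) =
          (Polynomial.C a * Polynomial.X ^ n) * Polynomial.X := by ring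
      rw [e1, map_mul, map_mul (Polynomial.aeval tL), Polynomial.aeval_X, Polynomial.aeval_X,
        Module.End.mul_apply, Module.End.mul_apply, ← htL x, ih (tL x)]
  rw [← Polynomial.aeval_def]
  apply LinearMap.ext_on (span_intLattice_eq_top h)
  intro f hf
  have := key p ⟨f, hf⟩
  rw [Polynomial.aeval_def tL, hp] at this
  simpa using this

/-- (B1): the Hecke algebra is integral over `ℤ`. -/
theorem isIntegral_heckeAlgebra {N : ℕ} [NeZero N] (h : HasIntegralBasis N) (S : Set ℕ) :
    Algebra.IsIntegral ℤ (heckeAlgebra N 2 S) :=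
  ⟨fun t => (isIntegral_algHom_iff (heckeAlgebra N 2 S).val Subtype.val_injective).1
    (isIntegral_of_mem_heckeAlgebra h t.2)⟩

/-- Under `HasIntegralBasis`, the space of weight-2 cusp forms of level `Γ₀(N)` is finite
dimensional. -/
theorem finiteDimensional_of_hasIntegralBasis {N : ℕ} [NeZero N] (h : HasIntegralBasis N) :
    FiniteDimensional ℂ (CuspForm (Gamma0 N) 2) := by
  obtain ⟨s, hs⟩ := intLattice_fg N 2
  refine Module.finite_def.2 ⟨s, ?_⟩
  rw [← span_intLattice_eq_top h, ← hs, Submodule.span_span_of_tower]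

end Fermat.Agent.Lib.S49
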