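/-
(B2)+(B3) for S49: the "congruence ideal" of the Hecke algebra attached to a lattice-realizing form.

For a cusp form `f0` with integral `q`-expansion, `congruenceIdeal S f0` is the ideal of those Hecke
operators `T` such that all `q`-coefficients of `T f0` lie in `3ℤ`.
-/
import Mathlib
import Fermat.Prelude.Def_CuspForm_HeckeAlgebra
import Fermat.Prelude.Def_CuspForm_IntegralLattice
import Fermat.Prelude.Def_CuspForm_IntegralStructure
import Fermat.Prelude.Def_FormalHecke_Eigensystem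
import Fermat.Prelude.Thm_CongruenceSubgroup_one_mem_strictPeriods_Gamma0
import Fermat.Prelude.Thm_ModularFormClass_qCoeff_heckeT
import Fermat.Prelude.Thm_ModularFormClass_qCoeff_heckeU
import Fermat.Agent.Lib.S49.HeckeIntegral

set_option autoImplicit false

namespace Fermat.Agent.Lib.S49

open CuspForm CongruenceSubgroup ModularFormClass EisensteinWeightOne UpperHalfPlane

variable {N : ℕ}

/-! ### linearity of `qCoeff` on cusp forms of level `Γ₀(N)` -/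

theorem qCoeff_add_cuspForm (f g : CuspForm (Gamma0 N) 2) (n : ℕ) :
    qCoeff (⇑(f + g)) n = qCoeff (⇑f) n + qCoeff (⇑g) n := by
  unfold qCoeff
  rw [FunLike.coe_add, ModularForm.qExpansion_add zero_lt_one
    (CongruenceSubgroup.one_mem_strictPeriods_Gamma0 N) f g, map_add]

theorem qCoeff_smul_cuspForm (c : ℂ) (f : CuspForm (Gamma0 N) 2) (n : ℕ) :
    qCoeff (⇑(c • f)) n = c * qCoeff (⇑f) n := by
  unfold qCoeff
  rw [FunLike.coe_smul, ModularForm.qExpansion_smul zero_lt_one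
    (CongruenceSubgroup.one_mem_strictPeriods_Gamma0 N) c f, PowerSeries.coeff_smul, smul_eq_mul]

theorem qCoeff_zero_cuspForm (n : ℕ) :
    qCoeff (⇑(0 : CuspForm (Gamma0 N) 2)) n = 0 := by
  have := qCoeff_smul_cuspForm (N := N) 0 0 n
  rwa [zero_smul, zero_mul] at this

theorem qCoeff_neg_cuspForm (f : CuspForm (Gamma0 N) 2) (n : ℕ) :
    qCoeff (⇑(-f)) n = - qCoeff (⇑f) n := by
  have := qCoeff_smul_cuspForm (N := N) (-1) f n
  rwa [neg_one_smul, neg_one_mul] at this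

theorem qCoeff_sub_cuspForm (f g : CuspForm (Gamma0 N) 2) (n : ℕ) :
    qCoeff (⇑(f - g)) n = qCoeff (⇑f) n - qCoeff (⇑g) n := by
  rw [sub_eq_add_neg, qCoeff_add_cuspForm, qCoeff_neg_cuspForm, ← sub_eq_add_neg]

theorem qCoeff_zsmul_cuspForm (m : ℤ) (f : CuspForm (Gamma0 N) 2) (n : ℕ) :
    qCoeff (⇑(m • f)) n = (m : ℂ) * qCoeff (⇑f) n := by
  rw [← Int.cast_smul_eq_zsmul ℂ m f, qCoeff_smul_cuspForm]

/-- Elements of the integral lattice have integral `q`-coefficients. -/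
theorem exists_int_qCoeff_of_mem_intLattice {f : CuspForm (Gamma0 N) 2}
    (hf : f ∈ intLattice N 2) (n : ℕ) : ∃ m : ℤ, qCoeff (⇑f) n = (m : ℂ) := by
  unfold intLattice at hf
  induction hf using Submodule.span_induction with
  | mem x hx => exact hx n
  | zero => exact ⟨0, by rw [qCoeff_zero_cuspForm, Int.cast_zero]⟩
  | add x y _ _ hx hy =>
    obtain ⟨a, ha⟩ := hx
    obtain ⟨b, hb⟩ := hy
    exact ⟨a + b, by rw [qCoeff_add_cuspForm, ha, hb, Int.cast_add]⟩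
  | smul c x _ hx =>
    obtain ⟨a, ha⟩ := hx
    exact ⟨c * a, by rw [qCoeff_zsmul_cuspForm, ha, Int.cast_mul]⟩

/-- A cusp form with integral `q`-coefficients lies in the integral lattice. -/
theorem mem_intLattice_of_forall_int_qCoeff {f : CuspForm (Gamma0 N) 2}
    (hf : ∀ n : ℕ, ∃ m : ℤ, qCoeff (⇑f) n = (m : ℂ)) : f ∈ intLattice N 2 :=
  Submodule.subset_span hf

/-- Saturation: a cusp form all of whose `q`-coefficients lie in `3ℤ` is `3` times an element of the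
integral lattice. -/
theorem exists_eq_three_smul_of_forall_qCoeff {f : CuspForm (Gamma0 N) 2}
    (hf : ∀ n : ℕ, ∃ m : ℤ, qCoeff (⇑f) n = 3 * (m : ℂ)) :
    ∃ g ∈ intLattice N 2, f = (3 : ℤ) • g := by
  refine ⟨(3⁻¹ : ℂ) • f, mem_intLattice_of_forall_int_qCoeff fun n => ?_, ?_⟩
  · obtain ⟨m, hm⟩ := hf n
    exact ⟨m, by rw [qCoeff_smul_cuspForm, hm]; field_simp⟩
  · rw [← Int.cast_smul_eq_zsmul ℂ, smul_smul]
    norm_num

theorem forall_qCoeff_of_eq_three_smul {f g : CuspForm (Gamma0 N) 2} (hg : g ∈ intLattice N 2)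
    (hfg : f = (3 : ℤ) • g) (n : ℕ) : ∃ m : ℤ, qCoeff (⇑f) n = 3 * (m : ℂ) := by
  obtain ⟨m, hm⟩ := exists_int_qCoeff_of_mem_intLattice hg n
  exact ⟨m, by rw [hfg, qCoeff_zsmul_cuspForm, hm]; norm_num⟩

/-! ### the congruence ideal -/

variable [NeZero N]

/-- The ideal of Hecke operators `T` such that `T f0` has all `q`-coefficients in `3ℤ`. -/
def congruenceIdeal (S : Set ℕ) (f0 : CuspForm (Gamma0 N) 2) : Ideal (heckeAlgebra N 2 S) where
  carrier := {T | ∀ n : ℕ, ∃ m : ℤ,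
    qCoeff (⇑((T : Module.End ℂ (CuspForm (Gamma0 N) 2)) f0)) n = 3 * (m : ℂ)}
  add_mem' := by
    intro T₁ T₂ h₁ h₂ n
    obtain ⟨a, ha⟩ := h₁ n
    obtain ⟨b, hb⟩ := h₂ n
    refine ⟨a + b, ?_⟩
    rw [Subalgebra.coe_add, LinearMap.add_apply, qCoeff_add_cuspForm, ha, hb]
    push_cast; ring
  zero_mem' := by
    intro n
    refine ⟨0, ?_⟩
    rw [Subalgebra.coe_zero, LinearMap.zero_apply, qCoeff_zero_cuspForm]
    simp
  smul_mem' := by
    intro T₁ T₂ h₂ n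
    obtain ⟨g, hg, hfg⟩ := exists_eq_three_smul_of_forall_qCoeff h₂
    rw [smul_eq_mul, Subalgebra.coe_mul, Module.End.mul_apply, hfg, map_zsmul]
    exact forall_qCoeff_of_eq_three_smul (heckeAlgebra_apply_mem_intLattice T₁.2 hg) rfl n

theorem mem_congruenceIdeal_iff {S : Set ℕ} {f0 : CuspForm (Gamma0 N) 2}
    {T : heckeAlgebra N 2 S} : T ∈ congruenceIdeal S f0 ↔ ∀ n : ℕ, ∃ m : ℤ,
      qCoeff (⇑((T : Module.End ℂ (CuspForm (Gamma0 N) 2)) f0)) n = 3 * (m : ℂ) :=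
  Iff.rfl

/-- (B2) The congruence ideal is proper as soon as the first coefficient is not divisible by `3`. -/
theorem congruenceIdeal_ne_top (S : Set ℕ) {f0 : CuspForm (Gamma0 N) 2} {af : ℕ → ℤ}
    (haf : ∀ n, (af n : ℂ) = qCoeff (⇑f0) n) (h1 : ¬ (3 : ℤ) ∣ af 1) :
    congruenceIdeal S f0 ≠ ⊤ := by
  intro htop
  have h : (1 : heckeAlgebra N 2 S) ∈ congruenceIdeal S f0 := by rw [htop]; trivial
  obtain ⟨m, hm⟩ := h 1
  rw [Subalgebra.coe_one, Module.End.one_apply, ← haf 1] at hm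
  have : af 1 = 3 * m := by exact_mod_cast hm
  exact h1 ⟨m, this⟩

/-- (B2) `3` lies in the congruence ideal. -/
theorem three_mem_congruenceIdeal (S : Set ℕ) {f0 : CuspForm (Gamma0 N) 2} {af : ℕ → ℤ}
    (haf : ∀ n, (af n : ℂ) = qCoeff (⇑f0) n) :
    (3 : heckeAlgebra N 2 S) ∈ congruenceIdeal S f0 := by
  intro n
  refine ⟨af n, ?_⟩
  have h3 : ((3 : heckeAlgebra N 2 S) : Module.End ℂ (CuspForm (Gamma0 N) 2)) = 3 := rfl
  have h3' : (3 : Module.End ℂ (CuspForm (Gamma0 N) 2)) f0 = (3 : ℂ) • f0 := by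
    have : (3 : Module.End ℂ (CuspForm (Gamma0 N) 2)) = (3 : ℂ) • 1 := by
      rw [← Algebra.algebraMap_eq_smul_one, map_ofNat]
    rw [this, LinearMap.smul_apply, Module.End.one_apply]
  rw [h3, h3', qCoeff_smul_cuspForm, haf n]

/-! ### the bridge product is congruent to the eigensystem mod 3 -/

/-- `e1Chi3 = 1 + 6 * G`. -/
theorem e1Chi3_eq : e1Chi3 = 1 + PowerSeries.C (6 : ℤ) *
    PowerSeries.mk (fun n => if n = 0 then 0 else sigmaChi n) := by
  ext n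
  rw [map_add, PowerSeries.coeff_C_mul, PowerSeries.coeff_mk, PowerSeries.coeff_one, e1Chi3,
    PowerSeries.coeff_mk]
  split_ifs <;> simp

theorem three_dvd_coeff_bridgeProduct_sub (a : ℕ → ℤ) (n : ℕ) :
    (3 : ℤ) ∣ (bridgeProduct a).coeff n - a n := by
  unfold bridgeProduct e1Chi3In
  have hmap : PowerSeries.map (Int.castRingHom ℤ) e1Chi3 = e1Chi3 := by
    ext n; simp
  rw [hmap, e1Chi3_eq, mul_add, mul_one, map_add, PowerSeries.coeff_mk, add_sub_cancel_left,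
    ← mul_assoc, mul_comm (PowerSeries.mk a) (PowerSeries.C (6 : ℤ)), mul_assoc,
    PowerSeries.coeff_C_mul]
  exact Dvd.dvd.mul_right (by norm_num) _

/-- `χ₋₃(ℓ) ≡ ℓ (mod 3)`. -/
theorem three_dvd_sub_chiNegThree (ℓ : ℕ) : (3 : ℤ) ∣ (ℓ : ℤ) - chiNegThree ℓ := by
  unfold chiNegThree
  have h := Nat.mod_lt ℓ (by norm_num : 0 < 3)
  split_ifs <;> omega

/-- (B3) For a prime `ℓ ∤ N`, the operator `T_ℓ - a ℓ` lies in the congruence ideal of a form
realizing the eigensystem `a` modulo `3`. -/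
theorem heckeT_sub_mem_congruenceIdeal {S : Set ℕ} {a : ℕ → ℤ}
    (heig : FormalHecke.IsEigensystem
      (fun ℓ => if ℓ ∣ N then 0 else ((chiNegThree ℓ : ℤ) : ℤ)) a)
    {f0 : CuspForm (Gamma0 N) 2} {af : ℕ → ℤ}
    (haf : ∀ n, (af n : ℂ) = qCoeff (⇑f0) n)
    (hcong : ∀ n, (3 : ℤ) ∣ af n - (bridgeProduct a).coeff n)
    {ℓ : ℕ} (hℓ : ℓ.Prime) (hℓN : ¬ ℓ ∣ N) (hℓS : ℓ ∉ S) :
    (heckeAlgebra.T hℓ hℓN hℓS - algebraMap ℤ (heckeAlgebra N 2 S) (a ℓ) : heckeAlgebra N 2 S) ∈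
      congruenceIdeal S f0 := by
  have hafa : ∀ n, (3 : ℤ) ∣ af n - a n := fun n => by
    have := dvd_add (hcong n) (three_dvd_coeff_bridgeProduct_sub a n)
    simpa using this
  intro n
  have hcoe : ((heckeAlgebra.T hℓ hℓN hℓS - algebraMap ℤ (heckeAlgebra N 2 S) (a ℓ) :
      heckeAlgebra N 2 S) : Module.End ℂ (CuspForm (Gamma0 N) 2)) f0 =
      heckeTLin 2 hℓ hℓN f0 - (a ℓ) • f0 := by
    rw [Subalgebra.coe_sub, heckeAlgebra.coe_T, LinearMap.sub_apply, Subalgebra.coe_algebraMap,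
      Module.algebraMap_end_apply]
  rw [hcoe, qCoeff_sub_cuspForm, qCoeff_zsmul_cuspForm, coe_heckeTLin_apply,
    ModularFormClass.qCoeff_heckeT f0 (CongruenceSubgroup.one_mem_strictPeriods_Gamma0 N)
      hℓ.ne_zero n, ModularForm.coeffHeckeT_apply, ← haf, ← haf, ← haf]
  have hrel := heig.2 ℓ hℓ n
  simp only [if_neg hℓN] at hrel
  obtain ⟨u, hu⟩ := hafa (n * ℓ)
  obtain ⟨v, hv⟩ := hafa n
  obtain ⟨w, hw⟩ := three_dvd_sub_chiNegThree ℓ
  by_cases hdvd : ℓ ∣ n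
  · obtain ⟨x, hx⟩ := hafa (n / ℓ)
    rw [if_pos hdvd] at hrel ⊢
    refine ⟨u + (ℓ : ℤ) * x + w * a (n / ℓ) - a ℓ * v, ?_⟩
    have hz : af (n * ℓ) + (ℓ : ℤ) * af (n / ℓ) - a ℓ * af n =
        3 * (u + (ℓ : ℤ) * x + w * a (n / ℓ) - a ℓ * v) := by
      rw [mul_comm n ℓ] at hu
      rw [mul_comm n ℓ]
      linear_combination hu + (ℓ : ℤ) * hx - a ℓ * hv + hrel + a (n / ℓ) * hw
    have hz' := congrArg (Int.cast : ℤ → ℂ) hz
    push_cast at hz' ⊢
    rw [← hz']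
    norm_num
  · rw [if_neg hdvd] at hrel ⊢
    refine ⟨u - a ℓ * v, ?_⟩
    have hz : af (n * ℓ) - a ℓ * af n = 3 * (u - a ℓ * v) := by
      rw [mul_comm n ℓ] at hu
      rw [mul_comm n ℓ]
      linear_combination hu - a ℓ * hv + hrel
    have hz' := congrArg (Int.cast : ℤ → ℂ) hz
    push_cast at hz' ⊢
    rw [← hz']
    ring

end Fermat.Agent.Lib.S49
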