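import Mathlib
import Fermat.Agent.Lib.S49.CommonEigenvector

set_option autoImplicit false

namespace Fermat.Agent.Lib.S49

open Module

section

variable {V : Type*} [AddCommGroup V] [Module ℂ V] [FiniteDimensional ℂ V]
  {𝕋 : Type*} [CommRing 𝕋]

/-- The simultaneous maximal generalized eigenspace of `ρ` with respect to `χ`. -/
def simGenEigenspace (ρ : 𝕋 →+* Module.End ℂ V) (χ : 𝕋 → ℂ) : Submodule ℂ V :=
  ⨅ T, (ρ T).maxGenEigenspace (χ T)

theorem iSup_simGenEigenspace_eq_top (ρ : 𝕋 →+* Module.End ℂ V) :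
    ⨆ χ : 𝕋 → ℂ, simGenEigenspace ρ χ = ⊤ := by
  unfold simGenEigenspace
  apply Module.End.iSup_iInf_maxGenEigenspace_eq_top_of_iSup_maxGenEigenspace_eq_top_of_commute
  · intro T T' _
    show Commute (ρ T) (ρ T')
    exact (Commute.all T T').map ρ
  · intro T
    exact Module.End.iSup_maxGenEigenspace_eq_top (ρ T)

omit [FiniteDimensional ℂ V] in
theorem simGenEigenspace_mapsTo (ρ : 𝕋 →+* Module.End ℂ V) (χ : 𝕋 → ℂ) (T : 𝕋) :
    ∀ v ∈ simGenEigenspace ρ χ, ρ T v ∈ simGenEigenspace ρ χ := by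
  intro v hv
  unfold simGenEigenspace at hv ⊢
  rw [Submodule.mem_iInf] at hv ⊢
  intro T'
  exact Module.End.mapsTo_maxGenEigenspace_of_comm ((Commute.all T' T).map ρ) (χ T') (hv T')

theorem pow_finrank_apply_eq_zero_of_mem_simGenEigenspace (ρ : 𝕋 →+* Module.End ℂ V) (χ : 𝕋 → ℂ)
    {T : 𝕋} (hT : χ T = 0) {w : V} (hw : w ∈ simGenEigenspace ρ χ) :
    ρ (T ^ finrank ℂ V) w = 0 := by
  unfold simGenEigenspace at hw
  rw [Submodule.mem_iInf] at hw
  have h1 := hw T
  rw [Module.End.maxGenEigenspace_eq_genEigenspace_finrank, Module.End.mem_genEigenspace_nat,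
    LinearMap.mem_ker, hT, zero_smul, sub_zero] at h1
  rw [map_pow]
  exact h1

/-- Key step: there is a simultaneous eigenvector whose eigencharacter has kernel inside the
given prime ideal. -/
theorem exists_eigenvector_ker_le (ρ : 𝕋 →+* Module.End ℂ V) (hρ : Function.Injective ρ)
    (𝔫 : Ideal 𝕋) [h𝔫 : 𝔫.IsPrime] :
    ∃ (χ : 𝕋 → ℂ) (v : V), v ≠ 0 ∧ (∀ T, ρ T v = χ T • v) ∧ ∀ T, χ T = 0 → T ∈ 𝔫 := by
  classical
  by_contra H
  push Not at H
  -- for every `χ` there is an element outside `𝔫` killing the simultaneous eigenspace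
  have key : ∀ χ : 𝕋 → ℂ, ∃ T : 𝕋, T ∉ 𝔫 ∧
      ∀ w ∈ simGenEigenspace ρ χ, ρ (T ^ finrank ℂ V) w = 0 := by
    intro χ
    by_cases hW : simGenEigenspace ρ χ = ⊥
    · refine ⟨1, fun h1 => h𝔫.ne_top ((Ideal.eq_top_iff_one 𝔫).mpr h1), ?_⟩
      intro w hw
      rw [hW, Submodule.mem_bot] at hw
      rw [hw, map_zero]
    · obtain ⟨v, hvW, hv0, hv⟩ := exists_common_eigenvector_of_mapsTo (fun T => ρ T)
        (fun T T' => (Commute.all T T').map ρ) _ (simGenEigenspace ρ χ) rfl hW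
        (fun T => simGenEigenspace_mapsTo ρ χ T)
      -- the eigenvalues agree with `χ`
      have hveq : ∀ T, ρ T v = χ T • v := by
        intro T
        obtain ⟨μ, hμ⟩ := hv T
        have hmem : v ∈ (ρ T).maxGenEigenspace (χ T) := by
          unfold simGenEigenspace at hvW
          exact (Submodule.mem_iInf _).mp hvW T
        rw [Module.End.mem_maxGenEigenspace] at hmem
        obtain ⟨k, hk⟩ := hmem
        have hpow : ∀ k : ℕ, ((ρ T - χ T • (1 : Module.End ℂ V)) ^ k) v = (μ - χ T) ^ k • v := by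
          intro k
          induction k with
          | zero => simp
          | succ k ih =>
            rw [pow_succ', Module.End.mul_apply, ih, map_smul, LinearMap.sub_apply, hμ,
              LinearMap.smul_apply, Module.End.one_apply, ← sub_smul, smul_smul, pow_succ]
        rw [hpow k] at hk
        have hμχ : μ = χ T := by
          rcases smul_eq_zero.mp hk with h0 | h0
          · exact sub_eq_zero.mp (pow_eq_zero_iff (by rintro rfl; simp at h0) |>.mp h0)
          · exact absurd h0 hv0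
        rw [hμ, hμχ]
      obtain ⟨T, hT0, hTn⟩ := H χ v hv0 hveq
      exact ⟨T, hTn, fun w hw =>
        pow_finrank_apply_eq_zero_of_mem_simGenEigenspace ρ χ hT0 hw⟩
  choose Tχ hTχn hTχ using key
  -- finitely many `χ` suffice
  have htop : (⊤ : Submodule ℂ V) ≤ ⨆ χ : 𝕋 → ℂ, simGenEigenspace ρ χ :=
    (iSup_simGenEigenspace_eq_top ρ).ge
  have hcompact : IsCompactElement (⊤ : Submodule ℂ V) :=
    (Submodule.fg_iff_compact ⊤).mp Module.Finite.fg_top
  obtain ⟨s, hs⟩ := CompleteLattice.IsCompactElement.exists_finset_of_le_iSup _ hcompact _ htop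
  set P : 𝕋 := ∏ χ ∈ s, Tχ χ ^ finrank ℂ V with hP
  have hPzero : ρ P = 0 := by
    have hle : (⨆ χ ∈ s, simGenEigenspace ρ χ) ≤ LinearMap.ker (ρ P) := by
      refine iSup₂_le fun χ hχ => ?_
      intro w hw
      rw [LinearMap.mem_ker, hP, ← Finset.prod_erase_mul s _ hχ, map_mul, Module.End.mul_apply,
        hTχ χ w hw, map_zero]
    have hker : LinearMap.ker (ρ P) = ⊤ := top_le_iff.mp (hs.trans hle)
    exact LinearMap.ker_eq_top.mp hker
  have hP0 : P = 0 := hρ (by rw [hPzero, map_zero])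
  have hPn : P ∈ 𝔫 := hP0 ▸ 𝔫.zero_mem
  rw [hP, Ideal.IsPrime.prod_mem_iff] at hPn
  obtain ⟨χ, -, hχ⟩ := hPn
  exact hTχn χ (h𝔫.mem_of_pow_mem _ hχ)

/-- **Deligne–Serre lifting lemma**, abstract form.  Let `𝕋` be a commutative ring, integral over
`ℤ`, acting faithfully on a finite-dimensional complex vector space `V`, and let `𝔫` be a proper
ideal of `𝕋`.  Then there is a simultaneous eigenvector `v` with eigencharacter `ψ : 𝕋 →+* ℂ`
and a maximal ideal `𝔪` of the ring of algebraic integers such that `ψ` maps `𝔫` into `𝔪`. -/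
theorem exists_eigenvector_of_ideal_ne_top [Algebra.IsIntegral ℤ 𝕋]
    (ρ : 𝕋 →+* Module.End ℂ V) (hρ : Function.Injective ρ)
    (𝔫 : Ideal 𝕋) (h𝔫 : 𝔫 ≠ ⊤) :
    ∃ (ψ : 𝕋 →+* ℂ) (v : V) (𝔪 : Ideal (integralClosure ℤ ℂ)),
      v ≠ 0 ∧ (∀ T, ρ T v = ψ T • v) ∧ 𝔪.IsMaximal ∧
      ∀ T ∈ 𝔫, ∃ c : integralClosure ℤ ℂ, (c : ℂ) = ψ T ∧ c ∈ 𝔪 := by
  obtain ⟨𝔫', h𝔫'max, h𝔫le⟩ := Ideal.exists_le_maximal 𝔫 h𝔫
  have := h𝔫'max.isPrime
  obtain ⟨χ, v, hv0, hv, hker⟩ := exists_eigenvector_ker_le ρ hρ 𝔫'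
  have hinj : Function.Injective (fun c : ℂ => c • v) := smul_left_injective ℂ hv0
  let ψ : 𝕋 →+* ℂ :=
    { toFun := χ
      map_one' := hinj (by
        show χ 1 • v = (1 : ℂ) • v
        rw [← hv 1, map_one, one_smul, Module.End.one_apply])
      map_mul' := fun T T' => hinj (by
        show χ (T * T') • v = (χ T * χ T') • v
        rw [← hv (T * T'), map_mul, Module.End.mul_apply, hv T', map_smul, hv T, smul_smul,
          mul_comm])
      map_zero' := hinj (by
        show χ 0 • v = (0 : ℂ) • v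
        rw [← hv 0, map_zero, zero_smul, LinearMap.zero_apply])
      map_add' := fun T T' => hinj (by
        show χ (T + T') • v = (χ T + χ T') • v
        rw [← hv (T + T'), map_add, LinearMap.add_apply, hv T, hv T', add_smul]) }
  have hψ : ∀ T, ψ T = χ T := fun _ => rfl
  have hint : ∀ T, ψ T ∈ integralClosure ℤ ℂ := fun T =>
    map_isIntegral_int ψ (Algebra.IsIntegral.isIntegral T)
  let ψ' : 𝕋 →+* integralClosure ℤ ℂ := ψ.codRestrict (integralClosure ℤ ℂ) hint
  let _ : Algebra 𝕋 (integralClosure ℤ ℂ) := ψ'.toAlgebra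
  have : Algebra.IsIntegral 𝕋 (integralClosure ℤ ℂ) :=
    Algebra.IsIntegral.tower_top (R := ℤ)
  have hkerle : RingHom.ker (algebraMap 𝕋 (integralClosure ℤ ℂ)) ≤ 𝔫' := by
    intro T hT
    apply hker T
    have h1 : ψ' T = 0 := hT
    have h2 : ((ψ' T : integralClosure ℤ ℂ) : ℂ) = 0 := by rw [h1]; rfl
    exact h2
  obtain ⟨Q, hQmax, hQ⟩ := Ideal.exists_ideal_over_maximal_of_isIntegral 𝔫' hkerle
  refine ⟨ψ, v, Q, hv0, hv, hQmax, fun T hT => ⟨ψ' T, rfl, ?_⟩⟩
  have hmem : T ∈ Q.comap (algebraMap 𝕋 (integralClosure ℤ ℂ)) := hQ ▸ h𝔫le hT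
  exact hmem

end

end Fermat.Agent.Lib.S49
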