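import Mathlib
import Fermat.Prelude.Def_FormalHecke_Eigensystem

set_option autoImplicit false

namespace Fermat.Agent.Lib.S49

open FormalHecke

variable {R : Type*} [CommRing R]

/-- Rewriting form of the eigensystem relation. -/
theorem isEigensystem_apply_prime_mul {e a : ℕ → R} (h : IsEigensystem e a)
    {ℓ : ℕ} (hℓ : ℓ.Prime) (n : ℕ) :
    a (ℓ * n) = a ℓ * a n - e ℓ * (if ℓ ∣ n then a (n / ℓ) else 0) := by
  have := h.2 ℓ hℓ n
  rw [← this]; ring

/-- A formal Hecke eigensystem is multiplicative on coprime arguments. -/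
theorem isEigensystem_mul_of_coprime {e a : ℕ → R} (h : IsEigensystem e a) :
    ∀ m n : ℕ, m.Coprime n → a (m * n) = a m * a n := by
  intro m
  induction m using Nat.strong_induction_on with
  | _ m ih =>
    intro n hmn
    rcases Nat.lt_or_ge m 2 with hm | hm
    · interval_cases m
      · have hn : n = 1 := by simpa using hmn
        subst hn
        simp [h.1]
      · simp [h.1]
    · obtain ⟨ℓ, hℓ, hℓm⟩ := Nat.exists_prime_and_dvd (show m ≠ 1 by omega)
      obtain ⟨m', rfl⟩ := hℓm
      have hm'pos : 0 < m' := by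
        rcases Nat.eq_zero_or_pos m' with h0 | h0
        · subst h0; simp at hm
        · exact h0
      have hm'lt : m' < ℓ * m' := by
        have := hℓ.two_le
        nlinarith
      have hℓn : Nat.Coprime ℓ n := Nat.Coprime.coprime_dvd_left (dvd_mul_right ℓ m') hmn
      have hm'n : Nat.Coprime m' n := Nat.Coprime.coprime_dvd_left (dvd_mul_left m' ℓ) hmn
      have hℓndvd : ¬ ℓ ∣ n := fun hd => by
        have := Nat.eq_one_of_dvd_coprimes hℓn (dvd_refl ℓ) hd
        exact hℓ.one_lt.ne' this
      have hdvd_iff : ℓ ∣ m' * n ↔ ℓ ∣ m' := by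
        constructor
        · intro hd
          exact (Nat.Coprime.dvd_mul_right hℓn).mp hd
        · intro hd
          exact dvd_mul_of_dvd_left hd n
      rw [mul_assoc, isEigensystem_apply_prime_mul h hℓ (m' * n),
        isEigensystem_apply_prime_mul h hℓ m', ih m' hm'lt n hm'n]
      by_cases hd : ℓ ∣ m'
      · obtain ⟨m'', rfl⟩ := hd
        have hm''lt : m'' < ℓ * (ℓ * m'') := by
          have := hℓ.two_le
          have h0 : 0 < m'' := by
            rcases Nat.eq_zero_or_pos m'' with h0 | h0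
            · subst h0; simp at hm'pos
            · exact h0
          nlinarith
        have hm''n : Nat.Coprime m'' n :=
          Nat.Coprime.coprime_dvd_left (dvd_mul_left m'' ℓ) hm'n
        have hdiv : ℓ * m'' * n / ℓ = m'' * n := by
          rw [mul_assoc, Nat.mul_div_cancel_left _ hℓ.pos]
        have hdiv' : ℓ * m'' / ℓ = m'' := Nat.mul_div_cancel_left _ hℓ.pos
        rw [if_pos (hdvd_iff.mpr (dvd_mul_right ℓ m'')), if_pos (dvd_mul_right ℓ m''), hdiv, hdiv',
          ih m'' hm''lt n hm''n]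
        ring
      · rw [if_neg (fun h' => hd (hdvd_iff.mp h')), if_neg hd]
        ring

/-- A formal Hecke eigensystem satisfies the prime power recursion. -/
theorem isEigensystem_prime_pow {e a : ℕ → R} (h : IsEigensystem e a)
    (ℓ r : ℕ) (hℓ : ℓ.Prime) :
    a (ℓ ^ (r + 2)) = a ℓ * a (ℓ ^ (r + 1)) - e ℓ * a (ℓ ^ r) := by
  have h1 : ℓ ^ (r + 2) = ℓ * ℓ ^ (r + 1) := by ring
  have h2 : ℓ ^ (r + 1) / ℓ = ℓ ^ r := by
    rw [pow_succ, Nat.mul_div_cancel _ hℓ.pos]
  rw [h1, isEigensystem_apply_prime_mul h hℓ, if_pos (dvd_pow_self ℓ (Nat.succ_ne_zero r)), h2]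

theorem isRecursive_of_isEigensystem {e a : ℕ → R} (h : IsEigensystem e a) :
    IsRecursive e a :=
  ⟨h.1, isEigensystem_mul_of_coprime h, fun ℓ r hℓ => isEigensystem_prime_pow h ℓ r hℓ⟩

end Fermat.Agent.Lib.S49
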