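import Mathlib
import Fermat.Prelude.Def_FLTPrelim_Modularity
import Fermat.Prelude.Def_CuspForm_HeckeAlgebra
import Fermat.Prelude.Def_FormalHecke_Eigensystem
import Fermat.Prelude.Thm_ModularFormClass_qCoeff_heckeT
import Fermat.Prelude.Thm_ModularFormClass_qCoeff_heckeU
import Fermat.Prelude.Thm_CongruenceSubgroup_one_mem_strictPeriods_Gamma0
import Fermat.Agent.Lib.Level.SmallLevel
import Fermat.Agent.Lib.S49.FormalHecke

set_option autoImplicit false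

namespace Fermat.Agent.Lib.S49

open CuspForm ModularFormClass UpperHalfPlane CongruenceSubgroup

variable {N : ℕ}

/-- `q`-coefficients of a scalar multiple of a cusp form. -/
theorem qCoeff_smul_cuspForm (c : ℂ) (f : CuspForm (Gamma0 N) 2) (n : ℕ) :
    qCoeff (⇑(c • f)) n = c * qCoeff (⇑f) n := by
  have h1 : (⇑(c • f) : ℍ → ℂ) = c • (⇑f : ℍ → ℂ) := rfl
  unfold qCoeff
  rw [h1, ModularForm.qExpansion_smul one_pos (one_mem_strictPeriods_Gamma0 N) c f]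
  simp

/-- `q`-coefficients of `T_ℓ f` for `ℓ ∤ N`. -/
theorem qCoeff_heckeTLin {ℓ : ℕ} (hℓ : ℓ.Prime) (hℓN : ¬ ℓ ∣ N)
    (f : CuspForm (Gamma0 N) 2) (n : ℕ) :
    qCoeff (⇑(heckeTLin 2 hℓ hℓN f)) n =
      qCoeff (⇑f) (n * ℓ) + if ℓ ∣ n then (ℓ : ℂ) * qCoeff (⇑f) (n / ℓ) else 0 := by
  rw [coe_heckeTLin_apply, ModularFormClass.qCoeff_heckeT f (one_mem_strictPeriods_Gamma0 N)
    hℓ.ne_zero n, ModularForm.coeffHeckeT_apply]
  simp

/-- `q`-coefficients of `U_q f` for `q ∣ N`. -/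
theorem qCoeff_heckeULin [NeZero N] {q : ℕ} (hq : q ≠ 0) (hqN : q ∣ N)
    (f : CuspForm (Gamma0 N) 2) (n : ℕ) :
    qCoeff (⇑(heckeULin 2 hqN f)) n = qCoeff (⇑f) (n * q) := by
  rw [coe_heckeULin_apply, ModularFormClass.qCoeff_heckeU f (one_mem_strictPeriods_Gamma0 N)
    hq n, ModularForm.coeffHeckeU_apply]

/-- The "Euler factor weight" of weight-2 level-`N` Hecke operators: `ℓ` away from the level and
`0` at the level. -/
noncomputable def eulerWeight (N : ℕ) (ℓ : ℕ) : ℂ := if ℓ ∣ N then 0 else (ℓ : ℂ)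

/-- The uniform Hecke relation satisfied by the `q`-coefficients of a simultaneous eigenvector. -/
theorem qCoeff_relation_of_eigenvector [NeZero N] (v : CuspForm (Gamma0 N) 2)
    (hT : ∀ (ℓ : ℕ) (hℓ : ℓ.Prime) (hℓN : ¬ ℓ ∣ N), ∃ μ : ℂ, heckeTLin 2 hℓ hℓN v = μ • v)
    (hU : ∀ (q : ℕ) (_ : q.Prime) (hqN : q ∣ N), ∃ μ : ℂ, heckeULin 2 hqN v = μ • v)
    (ℓ : ℕ) (hℓ : ℓ.Prime) :
    ∃ μ : ℂ, ∀ n : ℕ, qCoeff (⇑v) (ℓ * n) +
      eulerWeight N ℓ * (if ℓ ∣ n then qCoeff (⇑v) (n / ℓ) else 0) = μ * qCoeff (⇑v) n := by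
  by_cases hℓN : ℓ ∣ N
  · obtain ⟨μ, hμ⟩ := hU ℓ hℓ hℓN
    refine ⟨μ, fun n => ?_⟩
    have h1 := qCoeff_heckeULin hℓ.ne_zero hℓN v n
    rw [hμ, qCoeff_smul_cuspForm] at h1
    rw [eulerWeight, if_pos hℓN, zero_mul, add_zero, mul_comm ℓ n, h1]
  · obtain ⟨μ, hμ⟩ := hT ℓ hℓ hℓN
    refine ⟨μ, fun n => ?_⟩
    have h1 := qCoeff_heckeTLin hℓ hℓN v n
    rw [hμ, qCoeff_smul_cuspForm] at h1
    rw [eulerWeight, if_neg hℓN, mul_comm ℓ n, h1]
    split_ifs <;> ring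

/-- A nonzero simultaneous eigenvector of all `T_ℓ` and `U_q` has nonzero first coefficient. -/
theorem qCoeff_one_ne_zero_of_eigenvector [NeZero N] (v : CuspForm (Gamma0 N) 2) (hv : v ≠ 0)
    (hrel : ∀ (ℓ : ℕ), ℓ.Prime → ∃ μ : ℂ, ∀ n : ℕ, qCoeff (⇑v) (ℓ * n) +
      eulerWeight N ℓ * (if ℓ ∣ n then qCoeff (⇑v) (n / ℓ) else 0) = μ * qCoeff (⇑v) n) :
    qCoeff (⇑v) 1 ≠ 0 := by
  intro h1
  apply hv
  have hall : ∀ n : ℕ, 1 ≤ n → qCoeff (⇑v) n = 0 := by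
    intro n
    induction n using Nat.strong_induction_on with
    | _ n ih =>
      intro hn
      rcases Nat.lt_or_ge n 2 with hlt | hge
      · have : n = 1 := by omega
        subst this
        exact h1
      · obtain ⟨ℓ, hℓ, hℓn⟩ := Nat.exists_prime_and_dvd (show n ≠ 1 by omega)
        obtain ⟨m, rfl⟩ := hℓn
        have hmpos : 1 ≤ m := by
          rcases Nat.eq_zero_or_pos m with h0 | h0
          · subst h0; simp at hn
          · exact h0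
        have hmlt : m < ℓ * m := by
          have := hℓ.two_le
          nlinarith
        obtain ⟨μ, hμ⟩ := hrel ℓ hℓ
        have h2 := hμ m
        rw [ih m hmlt hmpos, mul_zero] at h2
        by_cases hd : ℓ ∣ m
        · have hdivpos : 1 ≤ m / ℓ := Nat.div_pos (Nat.le_of_dvd hmpos hd) hℓ.pos
          have hdivlt : m / ℓ < ℓ * m :=
            lt_of_le_of_lt (Nat.div_le_self m ℓ) hmlt
          rw [if_pos hd, ih (m / ℓ) hdivlt hdivpos, mul_zero, add_zero] at h2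
          exact h2
        · rw [if_neg hd, mul_zero, add_zero] at h2
          exact h2
  exact Fermat.Agent.Lib.Level.cuspForm_eq_zero_of_qCoeff_eq_zero v fun n h1 _ => hall n h1

/-- **Normalisation.**  A nonzero simultaneous eigenvector `v` of all Hecke operators `T_ℓ`
(`ℓ ∤ N`) and `U_q` (`q ∣ N`) can be rescaled to a normalised eigenform `g`, and the eigenvalue of
`T_ℓ`, `U_q` on `v` is the `ℓ`-th (resp. `q`-th) `q`-coefficient of `g`. -/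
theorem exists_normalizedEigenform_of_eigenvector [NeZero N] (v : CuspForm (Gamma0 N) 2)
    (hv : v ≠ 0)
    (hT : ∀ (ℓ : ℕ) (hℓ : ℓ.Prime) (hℓN : ¬ ℓ ∣ N), ∃ μ : ℂ, heckeTLin 2 hℓ hℓN v = μ • v)
    (hU : ∀ (q : ℕ) (_ : q.Prime) (hqN : q ∣ N), ∃ μ : ℂ, heckeULin 2 hqN v = μ • v) :
    ∃ g : CuspForm (Gamma0 N) 2, g.IsNormalizedEigenform ∧
      (∀ (ℓ : ℕ) (hℓ : ℓ.Prime) (hℓN : ¬ ℓ ∣ N),
        heckeTLin 2 hℓ hℓN v = qCoeff (⇑g) ℓ • v) ∧
      (∀ (q : ℕ) (_ : q.Prime) (hqN : q ∣ N), heckeULin 2 hqN v = qCoeff (⇑g) q • v) := by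
  have hrel := qCoeff_relation_of_eigenvector v hT hU
  have hc1 : qCoeff (⇑v) 1 ≠ 0 := qCoeff_one_ne_zero_of_eigenvector v hv hrel
  set c : ℂ := qCoeff (⇑v) 1 with hc
  set g : CuspForm (Gamma0 N) 2 := c⁻¹ • v with hg
  have hgcoeff : ∀ n, qCoeff (⇑g) n = c⁻¹ * qCoeff (⇑v) n := fun n => qCoeff_smul_cuspForm _ _ _
  have hg1 : qCoeff (⇑g) 1 = 1 := by rw [hgcoeff, ← hc, inv_mul_cancel₀ hc1]
  -- the eigenvalue at `ℓ` is the `ℓ`-th coefficient of `g`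
  have hμ_eq : ∀ (ℓ : ℕ) (hℓ : ℓ.Prime) (μ : ℂ), (∀ n : ℕ, qCoeff (⇑v) (ℓ * n) +
      eulerWeight N ℓ * (if ℓ ∣ n then qCoeff (⇑v) (n / ℓ) else 0) = μ * qCoeff (⇑v) n) →
      μ = qCoeff (⇑g) ℓ := by
    intro ℓ hℓ μ hμ
    have h1 := hμ 1
    rw [if_neg (by simpa using hℓ.one_lt.ne'), mul_zero, add_zero, mul_one, ← hc] at h1
    rw [hgcoeff, h1]
    field_simp
  have heig : FormalHecke.IsEigensystem (eulerWeight N) (fun n => qCoeff (⇑g) n) := by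
    refine ⟨hg1, fun ℓ hℓ n => ?_⟩
    obtain ⟨μ, hμ⟩ := hrel ℓ hℓ
    have hμg := hμ_eq ℓ hℓ μ hμ
    have h2 := hμ n
    simp only [hgcoeff]
    rw [← hgcoeff ℓ, ← hμg]
    have : c⁻¹ * qCoeff (⇑v) (ℓ * n) +
        eulerWeight N ℓ * (if ℓ ∣ n then c⁻¹ * qCoeff (⇑v) (n / ℓ) else 0) =
        c⁻¹ * (qCoeff (⇑v) (ℓ * n) +
          eulerWeight N ℓ * (if ℓ ∣ n then qCoeff (⇑v) (n / ℓ) else 0)) := by
      split_ifs <;> ring
    rw [this, h2]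
    ring
  have hrec := isRecursive_of_isEigensystem heig
  refine ⟨g, ⟨hg1, hrec.2.1, ?_, ?_⟩, ?_, ?_⟩
  · intro p r hp hpN
    have := hrec.2.2 p r hp
    simpa [eulerWeight, hpN] using this
  · intro p r hp hpN
    have := hrec.2.2 p r hp
    simpa [eulerWeight, hpN] using this
  · intro ℓ hℓ hℓN
    obtain ⟨μ, hμ⟩ := hT ℓ hℓ hℓN
    rw [hμ]
    congr 1
    apply hμ_eq ℓ hℓ μ
    intro n
    have h1 := qCoeff_heckeTLin hℓ hℓN v n
    rw [hμ, qCoeff_smul_cuspForm] at h1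
    rw [eulerWeight, if_neg hℓN, mul_comm ℓ n, h1]
    split_ifs <;> ring
  · intro q hq hqN
    obtain ⟨μ, hμ⟩ := hU q hq hqN
    rw [hμ]
    congr 1
    apply hμ_eq q hq μ
    intro n
    have h1 := qCoeff_heckeULin hq.ne_zero hqN v n
    rw [hμ, qCoeff_smul_cuspForm] at h1
    rw [eulerWeight, if_pos hqN, zero_mul, add_zero, mul_comm q n, h1]

end Fermat.Agent.Lib.S49
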